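import Fermat.Agent.LowerSq.Two.Coords

/-!
# The obstruction to extending to the cubic group is Eisenstein

For `γ` of order three modulo `2`, the value at `γ³` of `T_ℓ f - (ℓ + 1) f` is divisible by `3`:
the coset representatives of `T_ℓ` may be chosen congruent to `1` modulo `2`.
-/

set_option autoImplicit false

noncomputable section

open CongruenceSubgroup
open scoped MatrixGroups

namespace Fermat.Agent.LowerSq.Two

local notation "M₂" => Matrix (Fin 2) (Fin 2) ℤ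

variable {L ℓ : ℕ} [hℓ : Fact ℓ.Prime]

/-- The representatives conjugated by `diag(2, 1)`. -/
def betaMat (i : HK.HeckeIdx (L * 2 * 2) ℓ) : M₂ :=
  match i.1 with
  | some j => !![1, 2 * (j : ℤ); 0, (ℓ : ℤ)]
  | none => !![(ℓ : ℤ), 0; 0, 1]

omit hℓ in
theorem diagTwo_mul_heckeMat (i : HK.HeckeIdx (L * 2 * 2) ℓ) :
    LR.diagMat 2 * HK.heckeMat i = betaMat i * LR.diagMat 2 := by
  obtain ⟨_ | j, hi⟩ := i <;>
  · simp only [HK.heckeMat, betaMat, LR.diagMat]
    ext a b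
    fin_cases a <;> fin_cases b <;> simp [Matrix.mul_apply, Fin.sum_univ_two] <;> ring

omit hℓ in
theorem det_betaMat (i : HK.HeckeIdx (L * 2 * 2) ℓ) : (betaMat i).det = ℓ := by
  obtain ⟨_ | j, hi⟩ := i <;> simp [betaMat, Matrix.det_fin_two_of]

theorem castInt_betaMat (hℓ2 : ℓ ≠ 2) (i : HK.HeckeIdx (L * 2 * 2) ℓ) :
    (betaMat i).map (Int.castRingHom (ZMod 2)) = 1 := by
  have h1 : ((ℓ : ℤ) : ZMod 2) = 1 := by
    push_cast
    exact ZMod.natCast_eq_one_iff_odd.mpr (hℓ.out.odd_of_ne_two hℓ2)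
  have h2 : (2 : ZMod 2) = 0 := rfl
  obtain ⟨_ | j, hi⟩ := i <;>
  · simp only [betaMat]
    ext a b
    fin_cases a <;> fin_cases b <;> simp_all [Matrix.one_apply]

/-- Every representative of level `L` is a translate of an even one. -/
theorem exists_betaMat (hℓN : ¬ ℓ ∣ L * 2 * 2) (r : HK.HeckeIdx L ℓ) :
    ∃ (i : HK.HeckeIdx (L * 2 * 2) ℓ) (U : Gamma0 L),
      ((U : SL(2, ℤ)) : M₂) * betaMat i = HK.heckeMat r := by
  obtain ⟨_ | j, hr⟩ := r
  · exact ⟨⟨none, fun h => absurd h hℓN⟩, 1, by simp [betaMat, HK.heckeMat]⟩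
  · have hodd : Odd ℓ := hℓ.out.odd_of_ne_two fun h =>
      hℓN (h ▸ dvd_mul_left 2 (L * 2))
    obtain ⟨k, hk⟩ := hodd
    have hj := j.2
    let x := (j : ℕ) % 2
    obtain ⟨m, hlt, he⟩ : ∃ m : ℕ, m < ℓ ∧ 2 * m = (j : ℕ) + x * ℓ := by
      refine ⟨((j : ℕ) + x * ℓ) / 2, ?_, ?_⟩ <;>
        rcases Nat.mod_two_eq_zero_or_one (j : ℕ) with h | h <;>
          simp only [x, h, zero_mul, one_mul] <;> omega
    refine ⟨HK.HeckeIdx.upper _ ⟨m, hlt⟩, CongMod.upperU L (-(x : ℤ)), ?_⟩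
    have he' : (2 : ℤ) * (m : ℤ) = (j : ℤ) + (x : ℤ) * ℓ := by exact_mod_cast he
    ext a b
    fin_cases a <;> fin_cases b <;>
      simp [betaMat, HK.heckeMat, CongMod.upperU, CongMod.upperSL, HK.HeckeIdx.upper,
        Matrix.mul_apply, Fin.sum_univ_two]
    linear_combination he'

/-- One step of the permutation. -/
theorem exists_step (hℓN : ¬ ℓ ∣ L * 2 * 2) {γ : SL(2, ℤ)} (hγ : γ ∈ Gamma0 L)
    (hγ' : red2 γ = rho2) (i : HK.HeckeIdx (L * 2 * 2) ℓ) :
    ∃ (i' : HK.HeckeIdx (L * 2 * 2) ℓ) (c : SL(2, ℤ)),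
      c ∈ Gamma0 L ∧ red2 c = rho2 ∧ (c : M₂) * betaMat i' = betaMat i * (γ : M₂) := by
  have hℓ2 : ℓ ≠ 2 := fun h => hℓN (h ▸ dvd_mul_left 2 (L * 2))
  have hℓL : ¬ ℓ ∣ L := fun h => hℓN ((h.mul_right 2).mul_right 2)
  obtain ⟨r, h, hh⟩ := HK.exists_eq_mul_heckeMat (N := L) (p := ℓ) (M := betaMat i * (γ : M₂))
    (by rw [Matrix.det_mul, det_betaMat, γ.det_coe, mul_one])
    (by
      have h10 : betaMat i 1 0 = 0 := by obtain ⟨_ | j, hi⟩ := i <;> simp [betaMat]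
      rw [Matrix.mul_apply, Fin.sum_univ_two, h10, zero_mul, zero_add]
      exact ((ZMod.intCast_zmod_eq_zero_iff_dvd _ _).mp (Gamma0_mem.mp hγ)).mul_left _)
    (fun h => absurd h hℓL)
  obtain ⟨i', U, hU⟩ := exists_betaMat hℓN r
  refine ⟨i', h * U, (Gamma0 L).mul_mem h.2 U.2, ?_, ?_⟩
  · have e : ((h * U : Gamma0 L) : M₂) * betaMat i' = betaMat i * (γ : M₂) := by
      rw [Subgroup.coe_mul, Matrix.SpecialLinearGroup.coe_mul, Matrix.mul_assoc, hU, hh]
    have e' := congrArg (fun X : M₂ => X.map (Int.castRingHom (ZMod 2))) e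
    simp only [Matrix.map_mul, castInt_betaMat hℓ2, mul_one, one_mul] at e'
    rw [← hγ']
    exact Subtype.ext e'
  · rw [Matrix.SpecialLinearGroup.coe_mul, Matrix.mul_assoc, hU, hh]

variable [NeZero L] [NeZero (L * 2 * 2)]

/-- The congruence. -/
theorem three_dvd_heckeEnd_sub (hL : ¬ 2 ∣ L) (hℓN : ¬ ℓ ∣ L * 2 * 2)
    (f : LR.Lat (L * 2 * 2)) {γ : SL(2, ℤ)} (hγ : γ ∈ Gamma0 L) (hγ' : red2 γ = rho2)
    (hinv : ∀ x ∈ levelTwo L, psi hL f (γ * x * γ⁻¹) = psi hL f x) :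
    (3 : ℤ) ∣ psi hL (HK.heckeEnd (L * 2 * 2) ℓ ℤ f) (γ ^ 3) -
      ((ℓ : ℤ) + 1) * psi hL f (γ ^ 3) := by
  classical
  choose π c hc hcr hce using exists_step hℓN hγ hγ'
  have hadd := psi_add hL f
  obtain ⟨g, hg⟩ := exists_dMap_eq hL (cube_mem_levelTwo hγ hγ')
  let k : HK.HeckeIdx (L * 2 * 2) ℓ → SL(2, ℤ) := fun i => c i * γ⁻¹
  have hk : ∀ i, k i ∈ levelTwo L := fun i => Subgroup.mem_inf.mpr
    ⟨(Gamma0 L).mul_mem (hc i) ((Gamma0 L).inv_mem hγ), by
      rw [MonoidHom.mem_ker, map_mul, map_inv, hcr, hγ', mul_inv_cancel]⟩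
  -- the cycle products
  have hprod : ∀ i, c i * c (π i) * c (π (π i)) =
      k i * (γ ^ 1 * k (π i) * (γ ^ 1)⁻¹) * (γ ^ 2 * k (π (π i)) * (γ ^ 2)⁻¹) * γ ^ 3 := fun i => by
    simp only [k, pow_one, pow_succ, pow_zero, one_mul]
    group
  have hmem : ∀ i, c i * c (π i) * c (π (π i)) ∈ levelTwo L := fun i => by
    rw [hprod]
    exact mul_mem (mul_mem (mul_mem (hk i) (conj_mem_levelTwo hγ (hk _) 1))
      (conj_mem_levelTwo hγ (hk _) 2)) (cube_mem_levelTwo hγ hγ')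
  choose h hh using fun i => exists_dMap_eq hL (hmem i)
  have hnext : ∀ i, HK.heckeNext g i = π (π (π i)) ∧ HK.heckeCoc g i = h i := fun i => by
    refine HK.heckeNext_heckeCoc_eq (LR.diagMat_cancel_left two_ne_zero ?_)
    have hcoe : ((c i * c (π i) * c (π (π i)) : SL(2, ℤ)) : M₂) =
        (c i : M₂) * (c (π i) : M₂) * (c (π (π i)) : M₂) := by
      rw [Matrix.SpecialLinearGroup.coe_mul, Matrix.SpecialLinearGroup.coe_mul]
    calc LR.diagMat 2 * (((h i : SL(2, ℤ)) : M₂) * HK.heckeMat (π (π (π i))))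
        = (dMap (h i) : M₂) * (LR.diagMat 2 * HK.heckeMat (π (π (π i)))) := by
          rw [← Matrix.mul_assoc, ← dMap_mul_diagTwo, Matrix.mul_assoc]
      _ = (c i : M₂) * (c (π i) : M₂) * ((c (π (π i)) : M₂) * betaMat (π (π (π i)))) *
            LR.diagMat 2 := by
          rw [diagTwo_mul_heckeMat, hh, hcoe]
          simp only [Matrix.mul_assoc]
      _ = (c i : M₂) * ((c (π i) : M₂) * betaMat (π (π i))) * (γ : M₂) * LR.diagMat 2 := by
          rw [hce]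
          simp only [Matrix.mul_assoc]
      _ = ((c i : M₂) * betaMat (π i)) * (γ : M₂) * (γ : M₂) * LR.diagMat 2 := by
          rw [hce]
          simp only [Matrix.mul_assoc]
      _ = betaMat i * ((γ ^ 3 : SL(2, ℤ)) : M₂) * LR.diagMat 2 := by
          rw [hce, Matrix.SpecialLinearGroup.coe_pow, pow_succ, pow_succ, pow_one]
          simp only [Matrix.mul_assoc]
      _ = LR.diagMat 2 * (HK.heckeMat i * ((g : SL(2, ℤ)) : M₂)) := by
          rw [← hg, Matrix.mul_assoc, dMap_mul_diagTwo, ← Matrix.mul_assoc,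
            ← diagTwo_mul_heckeMat, Matrix.mul_assoc]
  have hbij : Function.Bijective π := by
    refine Finite.injective_iff_bijective.mp fun a b hab => ?_
    refine (HK.heckePerm g).injective ?_
    show HK.heckeNext g a = HK.heckeNext g b
    rw [(hnext a).1, (hnext b).1, hab]
  have hval : ∀ i, f.hom (Additive.ofMul (HK.heckeCoc g i)) =
      psi hL f (k i) + psi hL f (k (π i)) + psi hL f (k (π (π i))) + psi hL f (γ ^ 3) := fun i => by
    rw [(hnext i).2, ← psi_dMap hL f, hh, hprod,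
      hadd _ (mul_mem (mul_mem (hk i) (conj_mem_levelTwo hγ (hk _) 1))
        (conj_mem_levelTwo hγ (hk _) 2)) _ (cube_mem_levelTwo hγ hγ'),
      hadd _ (mul_mem (hk i) (conj_mem_levelTwo hγ (hk _) 1)) _ (conj_mem_levelTwo hγ (hk _) 2),
      hadd _ (hk i) _ (conj_mem_levelTwo hγ (hk _) 1),
      map_conj_pow hγ hinv (hk _) 1, map_conj_pow hγ hinv (hk _) 2]
  have hcard : Fintype.card (HK.HeckeIdx (L * 2 * 2) ℓ) = ℓ + 1 := by
    rw [Fintype.card_congr (Equiv.subtypeUnivEquiv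
      (p := fun i : Option (Fin ℓ) => ℓ ∣ L * 2 * 2 → i.isSome) fun i h => absurd h hℓN),
      Fintype.card_option, Fintype.card_fin]
  have hsum : psi hL (HK.heckeEnd (L * 2 * 2) ℓ ℤ f) (γ ^ 3) =
      3 * (∑ i, psi hL f (k i)) + ((ℓ : ℤ) + 1) * psi hL f (γ ^ 3) := by
    rw [← hg, psi_dMap, HK.hom_heckeEnd, HK.heckeHom_apply, hg]
    simp only [hval, Finset.sum_add_distrib]
    rw [Finset.sum_const, Finset.card_univ, hcard,
      hbij.sum_comp (fun i => psi hL f (k i)),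
      show ∑ i, psi hL f (k (π (π i))) = ∑ i, psi hL f (k i) from
        (hbij.comp hbij).sum_comp (fun i => psi hL f (k i)), nsmul_eq_mul]
    push_cast
    ring
  rw [hsum, add_sub_cancel_right]
  exact dvd_mul_right _ _

end Fermat.Agent.LowerSq.Two
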