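import Fermat.Agent.LowerSq.Two.Lattice
import Fermat.Agent.LowerSq.Two.Hecke

/-!
# Lowering `4 L` to `2 L` at `p = 3`

If `t` kills the forms of level `2 L`, its image in the lattice of level `4 L` consists of
homomorphisms anti-invariant under the involutions of `SL(2, 𝔽₂)`; after applying `T_ℓ - ℓ - 1`
they extend to the cubic extension of `Γ₀(L) ∩ Γ(2)`, so their intersection numbers are divisible
by `3`. By perfectness `(t (T_ℓ - ℓ - 1))²` is divisible by `3` on the lattice.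
-/

set_option autoImplicit false

noncomputable section

open ModularCurve Fermat.Agent.TraceFn CongruenceSubgroup ModularCurve.Period
open scoped MatrixGroups

namespace Fermat.Agent.LowerSq.Two

variable {L : ℕ} [NeZero L] [NeZero (L * 2)] [NeZero (L * 2 * 2)] {S : Finset ℕ}
  (hMS : ∀ r : ℕ, r.Prime → r ∣ L * 2 → r ∈ S)
  (hNS : ∀ r : ℕ, r.Prime → r ∣ L * 2 * 2 → r ∈ S)

/-- The element of order three modulo `2`. -/
def gam (L : ℕ) : SL(2, ℤ) := lowerTwo L * upperTwo L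

omit [NeZero L] [NeZero (L * 2)] [NeZero (L * 2 * 2)] in
theorem gam_mem : gam L ∈ Gamma0 L :=
  (Gamma0 L).mul_mem (HK.starRep L 1).2 (CongMod.upperU L 1).2

omit [NeZero L] [NeZero (L * 2)] [NeZero (L * 2 * 2)] in
theorem red2_gam (hL : ¬ 2 ∣ L) : red2 (gam L) = rho2 := by
  have h1 : ((L : ℤ) : ZMod 2) = 1 := by
    push_cast
    exact ZMod.natCast_eq_one_iff_odd.mpr (Nat.odd_iff.mpr (by omega))
  refine Subtype.ext (Matrix.ext fun i j => ?_)
  rw [red2_apply]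
  have e : (gam L : Matrix (Fin 2) (Fin 2) ℤ) = !![1, 1; -(L : ℤ), 1 - (L : ℤ)] := by
    rw [gam, Matrix.SpecialLinearGroup.coe_mul]
    simp [lowerTwo, upperTwo, HK.starRep, CongMod.upperU, CongMod.upperSL]
    ring
  show (((gam L : Matrix (Fin 2) (Fin 2) ℤ) i j : ℤ) : ZMod 2) = _
  rw [e]
  push_cast at h1
  fin_cases i <;> fin_cases j <;> simp [rho2, h1]

include hMS hNS in
/-- The image of a polynomial killing level `2 L` is invariant under `γ`. -/
theorem psi_gam (hL : ¬ 2 ∣ L) {t : AwayHecke S} (ht : awayEval (L * 2) S hMS t = 0)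
    (v : LR.Lat (L * 2 * 2)) {x : SL(2, ℤ)} (hx : x ∈ levelTwo L) :
    psi hL (latHom _ hNS t v) (gam L * x * (gam L)⁻¹) = psi hL (latHom _ hNS t v) x := by
  have h1 : LR.corL (L * 2) 2 (latHom _ hNS t v) = 0 := corL_latHom_eq_zero hMS hNS ht v
  have h2 : LR.corL (L * 2) 2 (R59.fricke (L * 2 * 2) ℤ (latHom _ hNS t v)) = 0 := by
    rw [fricke_latHom]
    exact corL_latHom_eq_zero hMS hNS ht _
  have hx' : upperTwo L * x * (upperTwo L)⁻¹ ∈ levelTwo L := by
    simpa using conj_mem_levelTwo (γ := upperTwo L) (CongMod.upperU L 1).2 hx 1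
  rw [show gam L * x * (gam L)⁻¹ =
      lowerTwo L * (upperTwo L * x * (upperTwo L)⁻¹) * (lowerTwo L)⁻¹ by
    simp only [gam, mul_inv_rev, mul_assoc],
    psi_lower hL _ h1 hx', psi_upper hL _ h2 hx, neg_neg]

omit [NeZero (L * 2)] in
theorem psi_sub_zsmul (hL : ¬ 2 ∣ L) (a b : LR.Lat (L * 2 * 2)) (n : ℤ) {x : SL(2, ℤ)}
    (hx : x ∈ levelTwo L) : psi hL (a - n • b) x = psi hL a x - n * psi hL b x := by
  obtain ⟨g, rfl⟩ := exists_dMap_eq hL hx
  rw [psi_dMap, psi_dMap, psi_dMap, show (a - n • b).hom = a.hom - n • b.hom from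
    (map_sub (HK.HSpace.homLin (L * 2 * 2) ℤ) a (n • b)).trans
      (congrArg _ (LR.hom_zsmul n b))]
  simp

include hMS hNS in
/-- Intersection numbers of the image of `t (T_ℓ - ℓ - 1)` are divisible by `3`. -/
theorem three_dvd_pairL (hL : ¬ 2 ∣ L) {t : AwayHecke S} (ht : awayEval (L * 2) S hMS t = 0)
    {ℓ : ℕ} [Fact ℓ.Prime] (hℓS : ℓ ∉ S) (v w : LR.Lat (L * 2 * 2)) :
    (3 : ℤ) ∣ LR.pairL (L * 2 * 2) (latHom _ hNS (eisOp S ℓ * t) v)
      (latHom _ hNS (eisOp S ℓ * t) w) := by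
  have hℓN : ¬ ℓ ∣ L * 2 * 2 := fun h => hℓS (hNS ℓ Fact.out h)
  have hγ := gam_mem (L := L)
  have hγ' := red2_gam hL
  have ext : ∀ u : LR.Lat (L * 2 * 2), ∃ F : parabolicHoms ℤ (levelCubic L) ℤ, ∀ x : levelTwo L,
      (F : Additive (levelCubic L) →+ ℤ) (Additive.ofMul ⟨x, levelTwo_le x.2⟩) =
        psi hL (latHom _ hNS (eisOp S ℓ * t) u) x := by
    intro u
    refine exists_extension hγ hγ' (psi_add hL _) (fun x hx => ?_) (psi_parabolic hL _) ?_
    · rw [mul_comm (eisOp S ℓ), map_mul]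
      exact psi_gam hMS hNS hL ht _ hx
    · have e : latHom _ hNS (eisOp S ℓ * t) u =
          HK.heckeEnd (L * 2 * 2) ℓ ℤ (latHom _ hNS t u) - ((ℓ : ℤ) + 1) • latHom _ hNS t u := by
        rw [map_mul, eisOp, map_sub, latHom_awayGen hNS hℓS]
        show HK.heckeEnd (L * 2 * 2) ℓ ℤ (latHom _ hNS t u) -
          latHom _ hNS (MvPolynomial.C ((ℓ : ℤ) + 1)) (latHom _ hNS t u) = _
        rw [latHom_C]
      rw [e, psi_sub_zsmul hL _ _ _ (cube_mem_levelTwo hγ hγ')]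
      exact three_dvd_heckeEnd_sub hL hℓN _ hγ hγ' fun x hx => psi_gam hMS hNS hL ht u hx
  obtain ⟨F, hF⟩ := ext v
  obtain ⟨G, hG⟩ := ext w
  let incl : levelTwo L →* levelCubic L := Subgroup.inclusion levelTwo_le
  let a : parabolicHoms ℤ (levelTwo L) ℤ :=
    ⟨(F : Additive (levelCubic L) →+ ℤ).comp (MonoidHom.toAdditive incl),
      fun γ hγ0 => F.2 (incl γ) hγ0⟩
  let b : parabolicHoms ℤ (levelTwo L) ℤ :=
    ⟨(G : Additive (levelCubic L) →+ ℤ).comp (MonoidHom.toAdditive incl),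
      fun γ hγ0 => G.2 (incl γ) hγ0⟩
  rw [LR.pairL_apply, Pairing.pairing_conj (isConjBy_kappa hL) a b _ _
    (fun g => ?_) (fun g => ?_)]
  · exact three_dvd_pairing hγ hγ' F G a b (fun _ => rfl) fun _ => rfl
  · exact ((hF (kappa hL g)).trans (psi_dMap hL _ g)).symm
  · exact ((hG (kappa hL g)).trans (psi_dMap hL _ g)).symm

end Fermat.Agent.LowerSq.Two

namespace Fermat.Agent.LowerSq

open Two

/-- **Lowering at `q = 2` for `p = 3`.** -/
theorem stmtElemTwo : StmtElemTwo := by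
  intro L hL hN hM S hpS hS hlow t ht ℓ hℓ hℓS A hA P hP hfix
  have : NeZero L := ⟨fun h => hL (h ▸ dvd_zero 2)⟩
  suffices h : ∀ (M N : ℕ) (_ : NeZero M) (_ : NeZero N), M = L * 2 → N = L * 2 * 2 →
      ∀ (hMS : ∀ r : ℕ, r.Prime → r ∣ M → r ∈ S), (∀ r : ℕ, r.Prime → r ∣ N → r ∈ S) →
        awayEval M S hMS t = 0 → ∀ Q : JZero N, 3 • Q = 0 →
          jHecke N (awayIncl S ((t * eisOp S ℓ) ^ 2)) Q = 0 from
    ⟨2, h _ _ hM hN (by rw [pow_one]) (by ring) hlow hS ht P hP⟩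
  rintro M N hM hN rfl rfl hMS hNS ht Q hQ
  have : Fact ℓ.Prime := ⟨hℓ⟩
  have : Fact (Nat.Prime 3) := ⟨Nat.prime_three⟩
  refine jHecke_eq_zero hNS (fun a => ?_) hQ
  refine LR.pairL_dvd (L * 2 * 2) (by norm_num) fun b => ?_
  rw [show (t * eisOp S ℓ) ^ 2 = (eisOp S ℓ * t) * (eisOp S ℓ * t) by ring, map_mul,
    Module.End.mul_apply, pairL_latHom]
  exact three_dvd_pairL hMS hNS hL ht hℓS a b

end Fermat.Agent.LowerSq
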