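import Fermat.Agent.LowerSq.Two.Cubic
import Fermat.Agent.LR.Lattice
import Fermat.Agent.R59.Twist
import Fermat.Agent.CongMod.Glue

/-!
# Level `4 L` seen on `Γ₀(L) ∩ Γ(2)`

Conjugation by `diag(2, 1)` identifies `Γ₀(4 L)` with `Γ₀(L) ∩ Γ(2)`. The kernels of the two
transfers to level `2 L` become anti-invariance under the two unipotents modulo `2`.
-/

set_option autoImplicit false

noncomputable section

open CongruenceSubgroup ModularCurve.Period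
open scoped MatrixGroups

namespace Fermat.Agent.LowerSq.Two

local notation "M₂" => Matrix (Fin 2) (Fin 2) ℤ

variable {L : ℕ}

/-- An invertible right factor cancels. -/
theorem mul_right_cancel_of_det {X A B : M₂} (hX : X.det ≠ 0) (h : A * X = B * X) : A = B := by
  have h' := congrArg (· * X.adjugate) h
  simp only [Matrix.mul_assoc, Matrix.mul_adjugate, Matrix.mul_smul, Matrix.mul_one] at h'
  exact smul_right_injective _ hX h'

theorem det_diagTwo : (LR.diagMat 2).det ≠ 0 := by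
  simp [LR.diagMat, Matrix.det_fin_two_of]

theorem coprime_two (hL : ¬ 2 ∣ L) : Nat.Coprime 2 L := Nat.prime_two.coprime_iff_not_dvd.mpr hL

/-- The conjugate by `diag(2, 1)`. -/
def dMap : Gamma0 (L * 2 * 2) →* SL(2, ℤ) :=
  (Gamma0 (L * 2)).subtype.comp (LR.deltaGamma0 (L * 2) 2)

theorem dMap_mul_diagTwo (g : Gamma0 (L * 2 * 2)) :
    (dMap g : M₂) * LR.diagMat 2 = LR.diagMat 2 * ((g : SL(2, ℤ)) : M₂) :=
  LR.deltaGamma0_mul_diagMat (L * 2) 2 g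

theorem dMap_mem (g : Gamma0 (L * 2 * 2)) : dMap g ∈ levelTwo L := by
  have h2L : ((L * 2 : ℕ) : ℤ) ∣ (dMap g) 1 0 := HK.Gamma0.dvd_one_zero (LR.deltaGamma0 (L * 2) 2 g)
  push_cast at h2L
  refine Subgroup.mem_inf.mpr ⟨Gamma0_mem.mpr ((ZMod.intCast_zmod_eq_zero_iff_dvd _ _).mpr
    ((dvd_mul_right _ _).trans h2L)), ?_⟩
  have e10 : (((dMap g) 1 0 : ℤ) : ZMod 2) = 0 :=
    (ZMod.intCast_zmod_eq_zero_iff_dvd _ 2).mpr ((dvd_mul_left _ _).trans h2L)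
  have e01 : (((dMap g) 0 1 : ℤ) : ZMod 2) = 0 := by
    show ((((2 : ℕ) : ℤ) * (g : SL(2, ℤ)) 0 1 : ℤ) : ZMod 2) = 0
    push_cast
    rw [show (2 : ZMod 2) = 0 from rfl, zero_mul]
  have hdet := congrArg (fun n : ℤ => (n : ZMod 2)) (dMap g).det_coe
  rw [Matrix.det_fin_two] at hdet
  push_cast at hdet
  rw [e01, e10, zero_mul, sub_zero] at hdet
  have : ∀ a d : ZMod 2, a * d = 1 → a = 1 ∧ d = 1 := by decide
  obtain ⟨ha, hd⟩ := this _ _ hdet
  rw [MonoidHom.mem_ker]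
  refine Subtype.ext (Matrix.ext fun i j => ?_)
  rw [red2_apply]
  fin_cases i <;> fin_cases j
  exacts [ha, e01, e10, hd]

theorem entry_of_mem_ker {x : SL(2, ℤ)} (h : x ∈ red2.ker) (i j : Fin 2) :
    ((x i j : ℤ) : ZMod 2) = (1 : Matrix (Fin 2) (Fin 2) (ZMod 2)) i j := by
  rw [← red2_apply, MonoidHom.mem_ker.mp h]
  rfl

theorem kappa_bijective (hL : ¬ 2 ∣ L) :
    Function.Bijective ((dMap (L := L)).codRestrict (levelTwo L) dMap_mem) := by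
  refine ⟨fun a b h => ?_, fun x => ?_⟩
  · exact CongMod.deltaGamma0_injective (q := 2) (L * 2)
      (Subtype.ext (congrArg Subtype.val h :))
  · have hc : ((L * 2 : ℕ) : ℤ) ∣ (x : SL(2, ℤ)) 1 0 := by
      have h1 := (ZMod.intCast_zmod_eq_zero_iff_dvd _ _).mp (Gamma0_mem.mp x.2.1)
      have h2 : (2 : ℤ) ∣ (x : SL(2, ℤ)) 1 0 := by
        exact (ZMod.intCast_zmod_eq_zero_iff_dvd _ 2).mp (entry_of_mem_ker x.2.2 1 0)
      push_cast
      exact IsCoprime.mul_dvd (by exact_mod_cast (Nat.isCoprime_iff_coprime.mpr (coprime_two hL).symm))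
        h1 h2
    have hb : ((2 : ℕ) : ℤ) ∣ (x : SL(2, ℤ)) 0 1 := by
      exact (ZMod.intCast_zmod_eq_zero_iff_dvd _ 2).mp (entry_of_mem_ker x.2.2 0 1)
    have : Fact (Nat.Prime 2) := ⟨Nat.prime_two⟩
    obtain ⟨g, hg⟩ := CongMod.exists_deltaGamma0_eq
      (g := (⟨x, Gamma0_mem.mpr ((ZMod.intCast_zmod_eq_zero_iff_dvd _ _).mpr hc)⟩ : Gamma0 (L * 2)))
      hb
    exact ⟨g, Subtype.ext (congrArg Subtype.val hg :)⟩

/-- `Γ₀(4 L) ≅ Γ₀(L) ∩ Γ(2)`. -/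
def kappa (hL : ¬ 2 ∣ L) : Gamma0 (L * 2 * 2) ≃* levelTwo L :=
  MulEquiv.ofBijective _ (kappa_bijective hL)

theorem coe_kappa (hL : ¬ 2 ∣ L) (g : Gamma0 (L * 2 * 2)) :
    (kappa hL g : SL(2, ℤ)) = dMap g := rfl

theorem isConjBy_kappa (hL : ¬ 2 ∣ L) : Pairing.IsConjBy (LR.diagMat 2) (kappa hL) :=
  ⟨by simp [LR.diagMat, Matrix.det_fin_two_of], dMap_mul_diagTwo⟩

variable [NeZero L] [NeZero (L * 2 * 2)] (hL : ¬ 2 ∣ L) (f : LR.Lat (L * 2 * 2))

/-- A lattice element as a function on `Γ₀(L) ∩ Γ(2)`. -/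
def psi (x : SL(2, ℤ)) : ℤ :=
  open Classical in
  if h : x ∈ levelTwo L then f.hom (Additive.ofMul ((kappa hL).symm ⟨x, h⟩)) else 0

theorem psi_dMap (g : Gamma0 (L * 2 * 2)) : psi hL f (dMap g) = f.hom (Additive.ofMul g) := by
  rw [psi, dif_pos (dMap_mem g)]
  congr 2
  exact (kappa hL).symm_apply_apply g

include hL in
theorem exists_dMap_eq {x : SL(2, ℤ)} (hx : x ∈ levelTwo L) :
    ∃ g : Gamma0 (L * 2 * 2), dMap g = x :=
  ⟨(kappa hL).symm ⟨x, hx⟩, congrArg Subtype.val ((kappa hL).apply_symm_apply ⟨x, hx⟩)⟩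

theorem psi_add : ∀ x ∈ levelTwo L, ∀ y ∈ levelTwo L,
    psi hL f (x * y) = psi hL f x + psi hL f y := by
  intro x hx y hy
  obtain ⟨g, rfl⟩ := exists_dMap_eq hL hx
  obtain ⟨g', rfl⟩ := exists_dMap_eq hL hy
  rw [← map_mul, psi_dMap, psi_dMap, psi_dMap, ofMul_mul, map_add]

theorem psi_parabolic : ∀ x ∈ levelTwo L, (x : M₂).trace ^ 2 = 4 → psi hL f x = 0 := by
  intro x hx htr
  obtain ⟨g, rfl⟩ := exists_dMap_eq hL hx
  rw [psi_dMap]
  refine (HK.HSpace.toParHom _ ℤ f).2 g ?_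
  rw [← LR.trace_deltaGamma0 (L * 2) 2 g]
  exact htr

theorem coe_conj_starRep (N : ℕ) (j : ℤ) (g : SL(2, ℤ)) :
    (((HK.starRep N j : SL(2, ℤ)) * g * (HK.starRep N j : SL(2, ℤ))⁻¹ : SL(2, ℤ)) : M₂) =
      !![1, 0; -((N : ℤ) * j), 1] * (g : M₂) * !![1, 0; (N : ℤ) * j, 1] := by
  rw [Matrix.SpecialLinearGroup.coe_mul, Matrix.SpecialLinearGroup.coe_mul,
    Matrix.SpecialLinearGroup.coe_inv]
  simp [HK.starRep, Matrix.adjugate_fin_two_of]

/-- The element transfers are computed with. -/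
def lowerTwo (L : ℕ) : SL(2, ℤ) := (HK.starRep L 1 : SL(2, ℤ))

theorem dMap_conj {g g' : Gamma0 (L * 2 * 2)}
    (h : (g' : SL(2, ℤ)) = lowerTwo (L * 2) * (g : SL(2, ℤ)) * (lowerTwo (L * 2))⁻¹) :
    dMap g' = lowerTwo L * dMap g * (lowerTwo L)⁻¹ := by
  have hA : LR.diagMat 2 * (lowerTwo (L * 2) : M₂) = (lowerTwo L : M₂) * LR.diagMat 2 := by
    ext i j
    fin_cases i <;> fin_cases j <;>
      simp [lowerTwo, HK.starRep, LR.diagMat, Matrix.mul_apply, Fin.sum_univ_two]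
  rw [eq_mul_inv_iff_mul_eq]
  refine Subtype.ext (mul_right_cancel_of_det det_diagTwo ?_)
  have h' : (g' : SL(2, ℤ)) * lowerTwo (L * 2) = lowerTwo (L * 2) * (g : SL(2, ℤ)) := by
    rw [h, inv_mul_cancel_right]
  have h'' := congrArg Subtype.val h'
  simp only [Matrix.SpecialLinearGroup.coe_mul] at h''
  rw [Matrix.SpecialLinearGroup.coe_mul, Matrix.SpecialLinearGroup.coe_mul, Matrix.mul_assoc,
    ← hA, ← Matrix.mul_assoc, dMap_mul_diagTwo, Matrix.mul_assoc, h'', Matrix.mul_assoc,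
    dMap_mul_diagTwo, ← Matrix.mul_assoc, hA, Matrix.mul_assoc]

/-- The kernel of the transfer is anti-invariant under the lower unipotent. -/
theorem exists_anti (hf : LR.corL (L * 2) 2 f = 0) (g : Gamma0 (L * 2 * 2)) :
    ∃ g' : Gamma0 (L * 2 * 2),
      (g' : SL(2, ℤ)) = lowerTwo (L * 2) * (g : SL(2, ℤ)) * (lowerTwo (L * 2))⁻¹ ∧
        f.hom (Additive.ofMul g') = -f.hom (Additive.ofMul g) := by
  let c : Fin 2 → Gamma0 (L * 2) := fun j => HK.starRep (L * 2) ((j : ℕ) : ℤ)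
  let g₀ : Gamma0 (L * 2) := LR.inclGamma0 (L * 2) 2 g
  have hmem : ∀ j, c j * g₀ * (c (id j))⁻¹ ∈ LR.levelSub (L * 2) 2 := by
    intro j
    have hA : ((L * 2 * 2 : ℕ) : ℤ) ∣ (g : SL(2, ℤ)) 1 0 := HK.Gamma0.dvd_one_zero g
    rw [Subgroup.mem_subgroupOf, Gamma0_mem, ZMod.intCast_zmod_eq_zero_iff_dvd]
    have hdet := (g : SL(2, ℤ)).det_coe
    rw [Matrix.det_fin_two] at hdet
    obtain ⟨m, hm⟩ := hA
    push_cast at hm
    have heven : (2 : ℤ) ∣ (g : SL(2, ℤ)) 1 1 - (g : SL(2, ℤ)) 0 0 := by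
      have h1 : Odd ((g : SL(2, ℤ)) 0 0 * (g : SL(2, ℤ)) 1 1) :=
        ⟨(g : SL(2, ℤ)) 0 1 * ((L : ℤ) * 2 * m), by rw [hm] at hdet; linear_combination hdet⟩
      obtain ⟨h2, h3⟩ := Int.odd_mul.mp h1
      exact (h3.sub_odd h2).two_dvd
    obtain ⟨r, hr⟩ := heven
    refine ⟨m + ((j : ℕ) : ℤ) * r - (L : ℤ) * ((j : ℕ) : ℤ) ^ 2 * (g : SL(2, ℤ)) 0 1, ?_⟩
    show ((HK.starRep (L * 2) ((j : ℕ) : ℤ) : SL(2, ℤ)) * (g : SL(2, ℤ)) *
      (HK.starRep (L * 2) ((j : ℕ) : ℤ) : SL(2, ℤ))⁻¹ : SL(2, ℤ)).1 1 0 = _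
    rw [coe_conj_starRep]
    simp [Matrix.mul_apply, Matrix.vecMul, dotProduct, Fin.sum_univ_two]
    linear_combination hm + ((L : ℤ) * 2 * ((j : ℕ) : ℤ)) * hr
  have h0 : LR.cor (L * 2) 2 f.hom (Additive.ofMul g₀) = 0 := by
    rw [← LR.hom_corL, hf]; rfl
  rw [LR.cor_apply_reps (L * 2) 2 c (HK.starRep_bijective (L * 2) Nat.prime_two (dvd_mul_left 2 L))
    f.hom g₀ id hmem, Fin.sum_univ_two] at h0
  refine ⟨⟨_, hmem 1⟩, rfl, ?_⟩
  rw [eq_neg_iff_add_eq_zero, add_comm]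
  refine Eq.trans (congrArg₂ (· + ·) (congrArg (fun y => f.hom (Additive.ofMul y))
    (Subtype.ext ?_)) rfl) h0
  show (g : SL(2, ℤ)) = (HK.starRep (L * 2) ((((0 : Fin 2) : ℕ)) : ℤ) : SL(2, ℤ)) * (g : SL(2, ℤ)) *
      (HK.starRep (L * 2) ((((0 : Fin 2) : ℕ)) : ℤ) : SL(2, ℤ))⁻¹
  refine Subtype.ext ?_
  rw [coe_conj_starRep]
  ext i j
  fin_cases i <;> fin_cases j <;> simp [Matrix.mul_apply, Matrix.vecMul, dotProduct, Fin.sum_univ_two]

theorem psi_lower (hf : LR.corL (L * 2) 2 f = 0) {x : SL(2, ℤ)} (hx : x ∈ levelTwo L) :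
    psi hL f (lowerTwo L * x * (lowerTwo L)⁻¹) = -psi hL f x := by
  obtain ⟨g, rfl⟩ := exists_dMap_eq hL hx
  obtain ⟨g', hg', hv⟩ := exists_anti f hf g
  rw [← dMap_conj hg', psi_dMap, psi_dMap, hv]

/-- The upper unipotent. -/
def upperTwo (L : ℕ) : SL(2, ℤ) := (CongMod.upperU L 1 : SL(2, ℤ))

/-- The kernel of the other transfer is anti-invariant under the upper unipotent. -/
theorem psi_upper (hf : LR.corL (L * 2) 2 (R59.fricke (L * 2 * 2) ℤ f) = 0) {x : SL(2, ℤ)}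
    (hx : x ∈ levelTwo L) : psi hL f (upperTwo L * x * (upperTwo L)⁻¹) = -psi hL f x := by
  obtain ⟨k, rfl⟩ := exists_dMap_eq hL hx
  let W := R59.frickeHom (L * 2 * 2)
  obtain ⟨g', hg', hv⟩ := exists_anti _ hf (W k)
  have hv' : f.hom (Additive.ofMul (W g')) = -f.hom (Additive.ofMul (W (W k))) := hv
  rw [R59.frickeHom_frickeHom] at hv'
  suffices h : dMap (W g') = upperTwo L * dMap k * (upperTwo L)⁻¹ by
    rw [← h, psi_dMap, psi_dMap, hv']
  set D := LR.diagMat 2 with hD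
  set w := R59.frickeMat (L * 2 * 2) with hw
  have hWk : ((k : SL(2, ℤ)) : M₂) * w = w * (((W k : Gamma0 _) : SL(2, ℤ)) : M₂) := by
    have := R59.frickeSL_mul_frickeMat (L * 2 * 2) (W k)
    rwa [show R59.frickeSL (L * 2 * 2) (W k) = (k : SL(2, ℤ)) from
      congrArg Subtype.val (R59.frickeHom_frickeHom (L * 2 * 2) k)] at this
  have hWg : (((W g' : Gamma0 _) : SL(2, ℤ)) : M₂) * w = w * ((g' : SL(2, ℤ)) : M₂) :=
    R59.frickeSL_mul_frickeMat (L * 2 * 2) g'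
  have hX : D * w * (lowerTwo (L * 2) : M₂) = (upperTwo L : M₂) * (D * w) := by
    ext i j
    fin_cases i <;> fin_cases j <;>
      simp [hD, hw, lowerTwo, upperTwo, HK.starRep, CongMod.upperU, CongMod.upperSL, LR.diagMat,
        R59.frickeMat, Matrix.mul_apply, Fin.sum_univ_two] <;> ring
  have hdet : (D * w).det ≠ 0 := by
    rw [Matrix.det_mul, hw, R59.det_frickeMat]
    exact mul_ne_zero det_diagTwo (Int.natCast_ne_zero.mpr (NeZero.ne _))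
  rw [eq_mul_inv_iff_mul_eq]
  refine Subtype.ext (mul_right_cancel_of_det hdet ?_)
  have hg'' : ((g' : SL(2, ℤ)) : M₂) * (lowerTwo (L * 2) : M₂) =
      (lowerTwo (L * 2) : M₂) * (((W k : Gamma0 _) : SL(2, ℤ)) : M₂) := by
    rw [← Matrix.SpecialLinearGroup.coe_mul, hg', inv_mul_cancel_right,
      Matrix.SpecialLinearGroup.coe_mul]
  calc ((dMap (W g') * upperTwo L : SL(2, ℤ)) : M₂) * (D * w)
      = (dMap (W g') : M₂) * ((upperTwo L : M₂) * (D * w)) := by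
        rw [Matrix.SpecialLinearGroup.coe_mul, Matrix.mul_assoc]
    _ = (dMap (W g') : M₂) * D * w * (lowerTwo (L * 2) : M₂) := by
        rw [← hX, Matrix.mul_assoc (_ * D), Matrix.mul_assoc _ D, Matrix.mul_assoc D]
    _ = D * w * (((g' : SL(2, ℤ)) : M₂) * (lowerTwo (L * 2) : M₂)) := by
        rw [hD, dMap_mul_diagTwo, ← hD, Matrix.mul_assoc D _ w, hWg, ← Matrix.mul_assoc D,
          Matrix.mul_assoc]
    _ = (upperTwo L : M₂) * (D * w) * (((W k : Gamma0 _) : SL(2, ℤ)) : M₂) := by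
        rw [hg'', ← Matrix.mul_assoc, hX]
    _ = (upperTwo L : M₂) * (dMap k : M₂) * (D * w) := by
        rw [Matrix.mul_assoc _ (D * w), Matrix.mul_assoc D, ← hWk, ← Matrix.mul_assoc D, hD,
          ← dMap_mul_diagTwo, Matrix.mul_assoc, Matrix.mul_assoc]
    _ = ((upperTwo L * dMap k : SL(2, ℤ)) : M₂) * (D * w) := by
        rw [Matrix.SpecialLinearGroup.coe_mul]

end Fermat.Agent.LowerSq.Two
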