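import Fermat.Agent.LR.Pairing.Gamma0

/-!
# The degree three cover between `Γ₀(L) ∩ Γ(2)` and its cubic extension

A parabolic homomorphism on `Γ₀(L) ∩ Γ(2)` invariant under an element `γ` of order `3` modulo `2`,
with value at `γ³` divisible by `3`, extends to the group generated with `γ`; so the intersection
number of two of them is divisible by `3`.
-/

set_option autoImplicit false

noncomputable section

open CongruenceSubgroup ModularCurve.Period
open scoped MatrixGroups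

namespace Fermat.Agent.LowerSq.Two

/-- Reduction modulo `2`. -/
def red2 : SL(2, ℤ) →* SL(2, ZMod 2) := Matrix.SpecialLinearGroup.map (Int.castRingHom (ZMod 2))

theorem red2_apply (g : SL(2, ℤ)) (i j : Fin 2) : (red2 g) i j = ((g i j : ℤ) : ZMod 2) := rfl

/-- An element of order three of `SL(2, 𝔽₂)`. -/
def rho2 : SL(2, ZMod 2) := ⟨!![1, 1; 1, 0], by rw [Matrix.det_fin_two_of]; decide⟩

theorem rho2_cube : rho2 ^ 3 = 1 := by
  refine Subtype.ext ?_
  rw [Matrix.SpecialLinearGroup.coe_pow]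
  decide

theorem orderOf_rho2 : orderOf rho2 = 3 :=
  orderOf_eq_prime rho2_cube fun h => by
    have := congrFun (congrFun (congrArg Subtype.val h) 0) 1
    revert this
    decide

theorem red2_neg_one : red2 (-1) = 1 := by
  refine Subtype.ext (Matrix.ext fun i j => ?_)
  rw [red2_apply]
  fin_cases i <;> fin_cases j <;> simp

/-- `Γ₀(L) ∩ Γ(2)`. -/
def levelTwo (L : ℕ) : Subgroup SL(2, ℤ) := Gamma0 L ⊓ red2.ker

/-- The elements of `Γ₀(L)` reducing into the subgroup of order three. -/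
def levelCubic (L : ℕ) : Subgroup SL(2, ℤ) := Gamma0 L ⊓ (Subgroup.zpowers rho2).comap red2

variable {L : ℕ}

theorem levelTwo_le : levelTwo L ≤ levelCubic L :=
  inf_le_inf_left _ (MonoidHom.ker_le_comap red2 _)

instance hasNegOne_levelTwo : Pairing.HasNegOne (levelTwo L) :=
  ⟨⟨(Pairing.hasNegOne_Gamma0 L).neg_one_mem, red2_neg_one⟩⟩

instance hasNegOne_levelCubic : Pairing.HasNegOne (levelCubic L) :=
  ⟨levelTwo_le hasNegOne_levelTwo.neg_one_mem⟩

instance finiteIndex_levelTwo [NeZero L] : (levelTwo L).FiniteIndex := by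
  unfold levelTwo
  infer_instance

instance finiteIndex_levelCubic [NeZero L] : (levelCubic L).FiniteIndex :=
  Subgroup.finiteIndex_of_le levelTwo_le

theorem mem_levelCubic_iff {γ g : SL(2, ℤ)} (hγ : γ ∈ Gamma0 L) (hγ' : red2 γ = rho2) :
    g ∈ levelCubic L ↔ ∃ n : ℕ, g * (γ ^ n)⁻¹ ∈ levelTwo L := by
  constructor
  · rintro ⟨hg, hg'⟩
    obtain ⟨n, hn⟩ := (mem_powers_iff_mem_zpowers.mpr (Subgroup.mem_comap.mp hg') :
      red2 g ∈ Submonoid.powers rho2)
    refine ⟨n, Subgroup.mem_inf.mpr ⟨(Gamma0 L).mul_mem hg ((Gamma0 L).inv_mem (pow_mem hγ n)), ?_⟩⟩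
    rw [MonoidHom.mem_ker, map_mul, map_inv, map_pow, hγ']
    show red2 g * (rho2 ^ n)⁻¹ = 1
    rw [← (hn : rho2 ^ n = red2 g), mul_inv_cancel]
  · rintro ⟨n, hn⟩
    have h1 : γ ∈ levelCubic L := ⟨hγ, Subgroup.mem_comap.mpr (hγ' ▸ Subgroup.mem_zpowers rho2)⟩
    have := mul_mem (levelTwo_le hn) (pow_mem h1 n)
    rwa [inv_mul_cancel_right] at this

/-- A parabolic element of the cubic group lies in `Γ(2)`. -/
theorem mem_levelTwo_of_trace {g : SL(2, ℤ)} (hg : g ∈ levelCubic L)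
    (htr : (g : Matrix (Fin 2) (Fin 2) ℤ).trace ^ 2 = 4) : g ∈ levelTwo L := by
  refine Subgroup.mem_inf.mpr ⟨hg.1, ?_⟩
  obtain ⟨n, hn⟩ := (mem_powers_iff_mem_zpowers.mpr (Subgroup.mem_comap.mp hg.2) :
    red2 g ∈ Submonoid.powers rho2)
  have h0 : (red2 g) 0 0 + (red2 g) 1 1 = 0 := by
    rw [red2_apply, red2_apply, ← Int.cast_add, ZMod.intCast_zmod_eq_zero_iff_dvd]
    rw [Matrix.trace_fin_two] at htr
    exact Int.prime_two.dvd_of_dvd_pow (n := 2) ⟨2, htr.trans (by norm_num)⟩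
  replace hn : rho2 ^ n = red2 g := hn
  rw [MonoidHom.mem_ker, ← hn, pow_eq_pow_mod n rho2_cube]
  rw [← hn, pow_eq_pow_mod n rho2_cube] at h0
  have hlt := Nat.mod_lt n (show 3 > 0 by norm_num)
  interval_cases hm : n % 3
  · exact pow_zero _
  · rw [pow_one] at h0; revert h0; decide
  · rw [Matrix.SpecialLinearGroup.coe_pow] at h0; revert h0; decide

section Extend

variable {ψ : SL(2, ℤ) → ℤ} {γ : SL(2, ℤ)}
  (hγ : γ ∈ Gamma0 L) (hγ' : red2 γ = rho2)
  (hadd : ∀ x ∈ levelTwo L, ∀ y ∈ levelTwo L, ψ (x * y) = ψ x + ψ y)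
  (hinv : ∀ x ∈ levelTwo L, ψ (γ * x * γ⁻¹) = ψ x)

include hγ in
theorem conj_mem_levelTwo {x : SL(2, ℤ)} (hx : x ∈ levelTwo L) (n : ℕ) :
    γ ^ n * x * (γ ^ n)⁻¹ ∈ levelTwo L :=
  Subgroup.mem_inf.mpr
    ⟨(Gamma0 L).mul_mem ((Gamma0 L).mul_mem (pow_mem hγ n) hx.1)
        ((Gamma0 L).inv_mem (pow_mem hγ n)),
      (MonoidHom.normal_ker red2).conj_mem x hx.2 _⟩

include hγ hγ' in
theorem cube_mem_levelTwo : γ ^ 3 ∈ levelTwo L :=
  Subgroup.mem_inf.mpr ⟨pow_mem hγ 3, by rw [MonoidHom.mem_ker, map_pow, hγ', rho2_cube]⟩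

include hγ hinv in
theorem map_conj_pow {x : SL(2, ℤ)} (hx : x ∈ levelTwo L) (n : ℕ) :
    ψ (γ ^ n * x * (γ ^ n)⁻¹) = ψ x := by
  induction n with
  | zero => simp
  | succ n ih =>
    rw [← ih, ← hinv _ (conj_mem_levelTwo hγ hx n)]
    congr 1
    rw [pow_succ', mul_inv_rev]
    simp only [mul_assoc]

include hadd in
theorem map_pow_levelTwo {x : SL(2, ℤ)} (hx : x ∈ levelTwo L) (n : ℕ) : ψ (x ^ n) = n • ψ x := by
  induction n with
  | zero =>
    have := hadd 1 (one_mem _) 1 (one_mem _)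
    rw [mul_one] at this
    simp only [pow_zero, zero_smul]
    omega
  | succ n ih => rw [pow_succ, hadd _ (pow_mem hx n) _ hx, ih, succ_nsmul]

include hγ hγ' hadd hinv in
theorem map_cube {k : SL(2, ℤ)} (hk : k ∈ levelTwo L) (n : ℕ) :
    ψ ((k * γ ^ n) ^ 3) = 3 * ψ k + n * ψ (γ ^ 3) := by
  have e : (k * γ ^ n) ^ 3 = k * (γ ^ n * k * (γ ^ n)⁻¹) *
      (γ ^ (2 * n) * k * (γ ^ (2 * n))⁻¹) * (γ ^ 3) ^ n := by
    rw [← pow_mul, show 2 * n = n + n by ring, show 3 * n = n + n + n by ring]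
    simp only [pow_add, pow_succ, pow_zero, one_mul]
    group
  have h1 := conj_mem_levelTwo hγ hk n
  have h2 := conj_mem_levelTwo hγ hk (2 * n)
  rw [e, hadd _ (mul_mem (mul_mem hk h1) h2) _ (pow_mem (cube_mem_levelTwo hγ hγ') n),
    hadd _ (mul_mem hk h1) _ h2, hadd _ hk _ h1, map_conj_pow hγ hinv hk,
    map_conj_pow hγ hinv hk, map_pow_levelTwo hadd (cube_mem_levelTwo hγ hγ'), nsmul_eq_mul]
  ring

include hγ hγ' hadd hinv in
/-- The extension to the cubic group. -/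
theorem exists_extension (hpar : ∀ x ∈ levelTwo L,
      (x : Matrix (Fin 2) (Fin 2) ℤ).trace ^ 2 = 4 → ψ x = 0)
    (ha : (3 : ℤ) ∣ ψ (γ ^ 3)) :
    ∃ F : parabolicHoms ℤ (levelCubic L) ℤ, ∀ x : levelTwo L,
      (F : Additive (levelCubic L) →+ ℤ) (Additive.ofMul ⟨x, levelTwo_le x.2⟩) = ψ x := by
  obtain ⟨c, hc⟩ := ha
  let F₀ : SL(2, ℤ) → ℤ := fun g => ψ (g ^ 3) / 3
  have hval : ∀ k ∈ levelTwo L, ∀ n : ℕ, F₀ (k * γ ^ n) = ψ k + n * c := fun k hk n => by
    show ψ ((k * γ ^ n) ^ 3) / 3 = _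
    rw [map_cube hγ hγ' hadd hinv hk n, hc,
      show 3 * ψ k + (n : ℤ) * (3 * c) = 3 * (ψ k + n * c) by ring,
      Int.mul_ediv_cancel_left _ (by norm_num)]
  have hres : ∀ k ∈ levelTwo L, F₀ k = ψ k := fun k hk => by simpa using hval k hk 0
  have hmul : ∀ g ∈ levelCubic L, ∀ h ∈ levelCubic L, F₀ (g * h) = F₀ g + F₀ h := by
    intro g hg h hh
    obtain ⟨m, hm⟩ := (mem_levelCubic_iff hγ hγ').mp hg
    obtain ⟨n, hn⟩ := (mem_levelCubic_iff hγ hγ').mp hh
    set a := g * (γ ^ m)⁻¹ with ha'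
    set b := h * (γ ^ n)⁻¹ with hb'
    have eg : g = a * γ ^ m := by rw [ha', inv_mul_cancel_right]
    have eh : h = b * γ ^ n := by rw [hb', inv_mul_cancel_right]
    have e : g * h = a * (γ ^ m * b * (γ ^ m)⁻¹) * γ ^ (m + n) := by
      rw [eg, eh, pow_add]; group
    rw [e, hval _ (mul_mem hm (conj_mem_levelTwo hγ hn m)), hadd _ hm _ (conj_mem_levelTwo hγ hn m),
      map_conj_pow hγ hinv hn, eg, eh, hval _ hm, hval _ hn]
    push_cast
    ring
  refine ⟨⟨AddMonoidHom.mk' (fun g => F₀ ((Additive.toMul g : levelCubic L) : SL(2, ℤ)))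
      (fun g h => hmul _ (Additive.toMul g).2 _ (Additive.toMul h).2), fun g hg => ?_⟩,
    fun x => hres _ x.2⟩
  show F₀ (g : SL(2, ℤ)) = 0
  rw [hres _ (mem_levelTwo_of_trace g.2 hg)]
  exact hpar _ (mem_levelTwo_of_trace g.2 hg) hg

end Extend

/-- The index is `3`. -/
theorem card_quotient_levelTwo {γ : SL(2, ℤ)} (hγ : γ ∈ Gamma0 L) (hγ' : red2 γ = rho2) :
    Nat.card (levelCubic L ⧸ (levelTwo L).subgroupOf (levelCubic L)) = 3 := by
  let r : levelCubic L →* Subgroup.zpowers rho2 :=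
    (red2.comp (levelCubic L).subtype).codRestrict _ fun g => Subgroup.mem_comap.mp g.2.2
  have hker : r.ker = (levelTwo L).subgroupOf (levelCubic L) := by
    ext g
    rw [MonoidHom.mem_ker, Subgroup.mem_subgroupOf]
    exact ⟨fun h => ⟨g.2.1, congrArg Subtype.val h⟩, fun h => Subtype.ext h.2⟩
  have hsurj : Function.Surjective r := by
    rintro ⟨x, hx⟩
    obtain ⟨n, hn⟩ := mem_powers_iff_mem_zpowers.mpr hx
    exact ⟨⟨γ ^ n, pow_mem hγ n, Subgroup.mem_comap.mpr (by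
      rw [map_pow, hγ']; exact pow_mem (Subgroup.mem_zpowers rho2) n)⟩, Subtype.ext (by
        show red2 (γ ^ n) = x
        rw [map_pow, hγ']; exact hn)⟩
  rw [← hker, Nat.card_congr (QuotientGroup.quotientKerEquivOfSurjective r hsurj).toEquiv,
    Nat.card_zpowers, orderOf_rho2]

variable [NeZero L]

/-- Intersection numbers of restrictions are divisible by the degree. -/
theorem three_dvd_pairing {γ : SL(2, ℤ)} (hγ : γ ∈ Gamma0 L) (hγ' : red2 γ = rho2)
    (F G : parabolicHoms ℤ (levelCubic L) ℤ) (f g : parabolicHoms ℤ (levelTwo L) ℤ)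
    (hf : ∀ x : levelTwo L, (f : Additive (levelTwo L) →+ ℤ) (Additive.ofMul x) =
      (F : Additive (levelCubic L) →+ ℤ) (Additive.ofMul ⟨x, levelTwo_le x.2⟩))
    (hg : ∀ x : levelTwo L, (g : Additive (levelTwo L) →+ ℤ) (Additive.ofMul x) =
      (G : Additive (levelCubic L) →+ ℤ) (Additive.ofMul ⟨x, levelTwo_le x.2⟩)) :
    (3 : ℤ) ∣ Pairing.pairing (levelTwo L) ℤ f g := by
  have : ((levelTwo L).subgroupOf (levelCubic L)).FiniteIndex := inferInstance
  rw [Pairing.pairing_res_cor levelTwo_le F ((3 : ℤ) • G) f g hf fun x => ?_, map_smul]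
  · exact dvd_mul_right _ _
  classical
  letI := Fintype.ofFinite (levelCubic L ⧸ (levelTwo L).subgroupOf (levelCubic L))
  set G' := (G : Additive (levelCubic L) →+ ℤ)
  let Q := levelCubic L ⧸ (levelTwo L).subgroupOf (levelCubic L)
  have hterm : ∀ q : Q, (g : Additive (levelTwo L) →+ ℤ)
      (Additive.ofMul (Pairing.corElt x q)) =
        G' (Additive.ofMul x) + (G' (Additive.ofMul q.out) - G' (Additive.ofMul (x • q).out)) := by
    intro q
    rw [hg]
    show G' (Additive.ofMul ((x • q).out⁻¹ * x * q.out)) = _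
    rw [ofMul_mul, ofMul_mul, ofMul_inv, map_add, map_add, map_neg]
    ring
  rw [Pairing.corFun]
  refine Eq.trans ?_ (Finset.sum_congr rfl fun q _ => (hterm q).symm)
  rw [Finset.sum_add_distrib, Finset.sum_sub_distrib,
    show ∑ q : Q, G' (Additive.ofMul (x • q).out) = ∑ q : Q, G' (Additive.ofMul q.out) from
      Equiv.sum_comp (MulAction.toPerm x) (fun q : Q => G' (Additive.ofMul q.out)),
    sub_self, add_zero, Finset.sum_const, Finset.card_univ, ← Nat.card_eq_fintype_card,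
    card_quotient_levelTwo hγ hγ']
  show ((3 : ℤ) • G') (Additive.ofMul x) = _
  simp [G']

end Fermat.Agent.LowerSq.Two
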