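import Fermat.Agent.LowerSq.Defs
import Fermat.Agent.LR.Lattice
import Fermat.Agent.R59.FrickeHecke
import Fermat.Agent.HK.TateFinal

/-!
# Good Hecke polynomials on the lattice `Hom_par(Γ₀(N), ℤ)`

A polynomial killing the forms of level `M` kills the transfer to level `M` of every element of
the lattice of level `M q` in its image; an element of `AwayHecke S` acting by a multiple of `p` on
the lattice kills the `p`-torsion of `J₀(N)`.
-/

set_option autoImplicit false

noncomputable section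

open ModularCurve Fermat.Agent.TraceFn CongruenceSubgroup
open scoped MatrixGroups Matrix

namespace Fermat.Agent.LowerSq.Two

variable (N : ℕ) [NeZero N] {S : Finset ℕ} (hNS : ∀ r : ℕ, r.Prime → r ∣ N → r ∈ S)

/-- The good polynomials on the lattice. -/
def latHom : AwayHecke S →+* Module.End ℤ (LR.Lat N) :=
  (HK.heckeAct N ℤ).comp ((awayToFull N S).comp (awayEval N S hNS))

variable {N}

theorem latHom_awayGen {ℓ : ℕ} [Fact ℓ.Prime] (hℓS : ℓ ∉ S) :
    latHom N hNS (awayGen S ℓ) = HK.heckeEnd N ℓ ℤ := by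
  have hℓN : ¬ ℓ ∣ N := fun h => hℓS (hNS ℓ Fact.out h)
  show HK.heckeAct N ℤ (awayToFull N S (awayEval N S hNS (awayGen S ℓ))) = _
  rw [awayEval_awayGen N S hNS Fact.out hℓN (fun h => hℓS (Finset.mem_coe.mp h)),
    ← LR.heckeAct_T hℓN]
  rfl

theorem latHom_C (n : ℤ) (a : LR.Lat N) : latHom N hNS (MvPolynomial.C n) a = n • a := by
  rw [show (MvPolynomial.C n : AwayHecke S) = (n : AwayHecke S) from map_intCast MvPolynomial.C n,
    map_intCast]
  rfl

theorem induction_awayHecke {P : AwayHecke S → Prop} (hC : ∀ n, P (MvPolynomial.C n))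
    (hadd : ∀ u v, P u → P v → P (u + v))
    (hmul : ∀ u (ℓ : ℕ), ℓ.Prime → ℓ ∉ S → P u → P (u * awayGen S ℓ)) (u : AwayHecke S) :
    P u := by
  induction u using MvPolynomial.induction_on with
  | C n => exact hC n
  | add u v hu hv => exact hadd u v hu hv
  | mul_X u i hu =>
    obtain ⟨⟨ℓ, hℓ⟩, hℓS⟩ := i
    have hX : (MvPolynomial.X ⟨⟨ℓ, hℓ⟩, hℓS⟩ : AwayHecke S) = awayGen S ℓ := by
      rw [awayGen, dif_pos ⟨hℓ, hℓS⟩]
    rw [hX]
    exact hmul u ℓ hℓ hℓS hu

/-- The good polynomials are self-adjoint. -/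
theorem pairL_latHom (u : AwayHecke S) :
    ∀ a b : LR.Lat N, LR.pairL N (latHom N hNS u a) b = LR.pairL N a (latHom N hNS u b) := by
  induction u using induction_awayHecke with
  | hC n =>
    intro a b
    rw [latHom_C, latHom_C]
    simp
  | hadd u v hu hv =>
    intro a b
    rw [map_add, LinearMap.add_apply, LinearMap.add_apply, map_add, LinearMap.add_apply, map_add,
      hu, hv]
  | hmul u ℓ hℓ hℓS hu =>
    intro a b
    have : Fact ℓ.Prime := ⟨hℓ⟩
    have e1 : latHom N hNS (u * awayGen S ℓ) a = latHom N hNS u (HK.heckeEnd N ℓ ℤ a) := by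
      rw [map_mul, latHom_awayGen hNS hℓS]; rfl
    have e2 : latHom N hNS (u * awayGen S ℓ) b = HK.heckeEnd N ℓ ℤ (latHom N hNS u b) := by
      rw [mul_comm, map_mul, latHom_awayGen hNS hℓS]; rfl
    rw [e1, e2, hu, LR.pairL_heckeEnd (fun h => hℓS (hNS ℓ hℓ h))]

/-- The Fricke involution commutes with the good polynomials. -/
theorem fricke_latHom (u : AwayHecke S) : ∀ a : LR.Lat N,
    R59.fricke N ℤ (latHom N hNS u a) = latHom N hNS u (R59.fricke N ℤ a) := by
  induction u using induction_awayHecke with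
  | hC n => intro a; rw [latHom_C, latHom_C, map_zsmul]
  | hadd u v hu hv =>
    intro a
    rw [map_add, LinearMap.add_apply, LinearMap.add_apply, map_add, hu, hv]
  | hmul u ℓ hℓ hℓS hu =>
    intro a
    have : Fact ℓ.Prime := ⟨hℓ⟩
    have hℓN : ¬ ℓ ∣ N := fun h => hℓS (hNS ℓ hℓ h)
    rw [map_mul, latHom_awayGen hNS hℓS]
    exact (hu _).trans (congrArg _ (R59.fricke_heckeEnd hℓN a))

variable {q : ℕ} [NeZero q] {M : ℕ} [NeZero M] (hMS : ∀ r : ℕ, r.Prime → r ∣ M → r ∈ S)
  (hMqS : ∀ r : ℕ, r.Prime → r ∣ M * q → r ∈ S)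

/-- Restriction commutes with the good polynomials. -/
theorem latHom_resL (u : AwayHecke S) : ∀ a : LR.Lat M,
    latHom (M * q) hMqS u (LR.resL M q a) = LR.resL M q (latHom M hMS u a) := by
  induction u using induction_awayHecke with
  | hC n => intro a; rw [latHom_C, latHom_C, map_zsmul]
  | hadd u v hu hv =>
    intro a
    rw [map_add, map_add, LinearMap.add_apply, LinearMap.add_apply, map_add, hu, hv]
  | hmul u ℓ hℓ hℓS hu =>
    intro a
    have : Fact ℓ.Prime := ⟨hℓ⟩
    have hcop : ℓ.Coprime q := hℓ.coprime_iff_not_dvd.mpr fun h =>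
      hℓS (hMqS ℓ hℓ (h.trans (dvd_mul_left q M)))
    rw [map_mul, map_mul, latHom_awayGen hMqS hℓS, latHom_awayGen hMS hℓS]
    exact (congrArg _ (LR.heckeEnd_resL hcop a)).trans (hu _)

/-- A polynomial killing level `M` sends the lattice of level `M q` to the kernel of the
transfer. -/
theorem corL_latHom_eq_zero {t : AwayHecke S} (ht : awayEval M S hMS t = 0) (v : LR.Lat (M * q)) :
    LR.corL M q (latHom (M * q) hMqS t v) = 0 := by
  have h0 : latHom M hMS t = 0 := by
    show HK.heckeAct M ℤ (awayToFull M S (awayEval M S hMS t)) = 0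
    rw [ht, map_zero, map_zero]
  refine LR.pairL_eq_iff M fun b => ?_
  rw [LR.pairL_skew, ← LR.pairL_resL, ← pairL_latHom hMqS t,
    latHom_resL hMS hMqS t, h0, LinearMap.zero_apply, map_zero, map_zero]
  simp

/-- An element acting on the lattice by multiples of `p` kills `J₀(N)[p]`. -/
theorem jHecke_eq_zero {p : ℕ} [Fact p.Prime] {u : AwayHecke S}
    (hu : ∀ a : LR.Lat N, ∃ a', latHom N hNS u a = (p : ℤ) • a') {P : JZero N} (hP : p • P = 0) :
    jHecke N (awayIncl S u) P = 0 := by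
  let D := HK.tateCoords N p
  obtain ⟨z, hz⟩ : ∃ z : HK.jTor N p 1, (z : JZero N) = P :=
    ⟨⟨P, (HK.mem_jTor (N := N) (p := p)).mpr (by rwa [pow_one])⟩, rfl⟩
  have hc := Fermat.Agent.HK.Corr.heckeOperatorsCommuteBar N
  have key := D.e_heckeEvalBar hc (awayIncl S u) 1 z
  rw [← HK.awayToFull_awayEval hNS u] at key
  have hmat : (HK.heckeRep N (awayToFull N S (awayEval N S hNS u))).map
      (Int.castRingHom (ZMod (p ^ 1))) = 0 := by
    ext i j
    obtain ⟨a', ha'⟩ := hu ((HK.hCoord N ℤ).symm (Pi.single j 1))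
    have h1 : HK.hMatrix N ℤ (latHom N hNS u) i j = (p : ℤ) * HK.hCoord N ℤ a' i := by
      refine (HK.hMatrix_apply ℤ _ i j).trans ((congrArg (fun x => HK.hCoord N ℤ x i) ha').trans ?_)
      exact (congrFun (map_zsmul (HK.hCoord N ℤ) (p : ℤ) a') i).trans (smul_eq_mul _ _)
    have h3 := congrFun (congrFun (HK.hMatrix_heckeAct N ℤ (awayToFull N S (awayEval N S hNS u))) i) j
    rw [show HK.heckeAct N ℤ (awayToFull N S (awayEval N S hNS u)) = latHom N hNS u from rfl, h1]
      at h3
    have h2 : HK.heckeRep N (awayToFull N S (awayEval N S hNS u)) i j =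
        (p : ℤ) * HK.hCoord N ℤ a' i := by simpa using h3.symm
    rw [Matrix.map_apply, h2, map_mul, map_natCast, Matrix.zero_apply,
      show ((p : ℕ) : ZMod (p ^ 1)) = 0 from (ZMod.natCast_eq_zero_iff _ _).mpr (by rw [pow_one]),
      zero_mul]
  rw [hmat, Matrix.zero_mulVec, AddEquiv.map_eq_zero_iff] at key
  have key' := congrArg Subtype.val key
  rw [jHecke_apply, heckeModuleBar_smul_def hc, ← hz]
  exact key'

end Fermat.Agent.LowerSq.Two
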